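import Fermat.Agent.IntegralUniform.Local
import Fermat.Agent.IntegralAverage.Count
import Fermat.Agent.IntegralAverage.Thue
import Fermat.Agent.SelmerAverage.Main
import Fermat.Agent.MordellWeil.Structure
import Mathlib.Data.Rat.Lemmas

/-!
# A uniform bound for `S`-integral points

In a coset of the doubles the quartics of the points are equivalent over `ℚ`, so the `x` of each
`S`-integral point is the quotient of Hessian and value of the quartic of one of them at a place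
where the value is composed of the primes of `S` and of the discriminant. Evertse bounds these.
-/

set_option autoImplicit false
set_option linter.style.haveILetI false

noncomputable section

open WeierstrassCurve FA.SiegelPoints Finset
open FA.AverageRank (shortCurve shortCurve_equation PointsModTwo doubles)
open scoped Classical

namespace FA.IntegralUniform

/-- The points with `S`-integral abscissa. -/
def sPoints (S : Finset ℕ) (A B : ℤ) : Set (ℚ × ℚ) :=
  {P | P.2 ^ 2 = P.1 ^ 3 + A * P.1 + B ∧ ∀ q : ℕ, q.Prime → q ∣ P.1.den → q ∈ S}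

/-- `S` and the primes of `6` and of the discriminant. -/
def badPrimes (S : Finset ℕ) (A B : ℤ) : Finset ℕ :=
  S ∪ (6 * (4 * A ^ 3 + 27 * B ^ 2)).natAbs.primeFactors

theorem not_dvd_of_notMem {S : Finset ℕ} {A B : ℤ} (hΔ : 4 * A ^ 3 + 27 * B ^ 2 ≠ 0) {l : ℕ}
    (hl : l.Prime) (h : l ∉ badPrimes S A B) :
    l ∉ S ∧ ¬ (l : ℤ) ∣ 6 ∧ ¬ (l : ℤ) ∣ 4 * A ^ 3 + 27 * B ^ 2 := by
  rw [badPrimes, mem_union, not_or] at h
  have h0 : 6 * (4 * A ^ 3 + 27 * B ^ 2) ≠ 0 := mul_ne_zero (by norm_num) hΔ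
  refine ⟨h.1, fun hd => h.2 ?_, fun hd => h.2 ?_⟩ <;>
    refine Nat.mem_primeFactors.mpr ⟨hl, Int.natCast_dvd.mp ?_, Int.natAbs_ne_zero.mpr h0⟩
  · exact hd.mul_right _
  · exact hd.mul_left _

/-- Integral coordinates. -/
theorem exists_integral_coords {A B : ℤ} {x y : ℚ} (h : y ^ 2 = x ^ 3 + A * x + B) :
    ∃ X Y D : ℤ, D = x.den ∧ x * (D : ℚ) ^ 2 = X ∧ y * (D : ℚ) ^ 3 = Y ∧
      Y ^ 2 = X ^ 3 + A * D ^ 4 * X + B * D ^ 6 := by
  set D : ℤ := (x.den : ℤ) with hD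
  have hxD : x * (D : ℚ) = (x.num : ℚ) := by simp [hD]
  set q := y * (D : ℚ) ^ 3
  have hq : q ^ 2 = ((x.num ^ 3 * D ^ 3 + A * x.num * D ^ 5 + B * D ^ 6 : ℤ) : ℚ) := by
    push_cast
    simp only [q]
    linear_combination (D : ℚ) ^ 6 * h + ((D : ℚ) ^ 3 * ((x * D) ^ 2 + x * D * x.num +
      (x.num : ℚ) ^ 2) + (A : ℚ) * (D : ℚ) ^ 5) * hxD
  have hden : q.den = 1 := by
    have := congrArg Rat.den hq
    rw [Rat.den_pow, Rat.den_intCast] at this
    exact (Nat.pow_eq_one.mp this).resolve_right two_ne_zero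
  refine ⟨x.num * D, q.num, D, rfl, ?_, (Rat.coe_int_num_of_den_eq_one hden).symm, ?_⟩
  · push_cast
    linear_combination (D : ℚ) * hxD
  · have e : ((q.num : ℤ) : ℚ) ^ 2 =
        ((x.num ^ 3 * D ^ 3 + A * x.num * D ^ 5 + B * D ^ 6 : ℤ) : ℚ) := by
      rw [Rat.coe_int_num_of_den_eq_one hden, hq]
    have e' : q.num ^ 2 = x.num ^ 3 * D ^ 3 + A * x.num * D ^ 5 + B * D ^ 6 := by
      exact_mod_cast e
    linear_combination e'

/-- A non-zero rational vector is a multiple of a coprime integral one. -/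
theorem exists_coprime_multiple {U W : ℚ} (h : U ≠ 0 ∨ W ≠ 0) :
    ∃ (c : ℚ) (u w : ℤ), c ≠ 0 ∧ IsCoprime u w ∧ U = c * u ∧ W = c * w := by
  set u₀ : ℤ := U.num * W.den
  set w₀ : ℤ := W.num * U.den
  have hne : u₀ ≠ 0 ∨ w₀ ≠ 0 := by
    rcases h with h | h
    · exact Or.inl (mul_ne_zero (Rat.num_ne_zero.mpr h) (by exact_mod_cast W.den_nz))
    · exact Or.inr (mul_ne_zero (Rat.num_ne_zero.mpr h) (by exact_mod_cast U.den_nz))
  set g : ℤ := (Int.gcd u₀ w₀ : ℤ) with hgdef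
  have hg : g ≠ 0 := by
    rw [hgdef, Int.natCast_ne_zero, ne_eq, Int.gcd_eq_zero_iff]
    tauto
  obtain ⟨u, hu⟩ := Int.gcd_dvd_left u₀ w₀
  obtain ⟨w, hw⟩ := Int.gcd_dvd_right u₀ w₀
  rw [← hgdef] at hu hw
  have huv : g = u₀ * Int.gcdA u₀ w₀ + w₀ * Int.gcdB u₀ w₀ := Int.gcd_eq_gcd_ab u₀ w₀
  have hUd : (U.den : ℚ) ≠ 0 := by exact_mod_cast U.den_nz
  have hWd : (W.den : ℚ) ≠ 0 := by exact_mod_cast W.den_nz
  refine ⟨(g : ℚ) / (U.den * W.den), u, w, div_ne_zero (Int.cast_ne_zero.mpr hg)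
    (mul_ne_zero hUd hWd), ⟨Int.gcdA u₀ w₀, Int.gcdB u₀ w₀, mul_left_cancel₀ hg ?_⟩, ?_, ?_⟩
  · linear_combination -huv - Int.gcdA u₀ w₀ * hu - Int.gcdB u₀ w₀ * hw
  · have e : ((U.num : ℚ)) * W.den = g * u := by exact_mod_cast hu
    conv_lhs => rw [← U.num_div_den]
    field_simp
    linear_combination e
  · have e : ((W.num : ℚ)) * U.den = g * w := by exact_mod_cast hw
    conv_lhs => rw [← W.num_div_den]
    field_simp
    linear_combination e

/-- The abscissae that a point `(x₀, y₀)` allows in its coset. -/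
theorem coset_abscissa {S : Finset ℕ} {A B : ℤ} (hΔ : 4 * A ^ 3 + 27 * B ^ 2 ≠ 0) {x₀ y₀ : ℚ}
    (h₀ : (x₀, y₀) ∈ sPoints S A B) :
    ∃ xs : Finset ℚ, xs.card ≤ IntegralAverage.solBound 4 (badPrimes S A B).card ∧
      ∀ x y : ℚ, (x, y) ∈ sPoints S A B →
        ∀ (hP : (shortCurve (A : ℚ) B).toAffine.Nonsingular x₀ y₀)
          (hQ : (shortCurve (A : ℚ) B).toAffine.Nonsingular x y),
          SelmerAverage.cosetOf (Affine.Point.some x₀ y₀ hP) =
            SelmerAverage.cosetOf (Affine.Point.some x y hQ) → x ∈ xs := by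
  obtain ⟨h0, hden0⟩ := h₀
  simp only at h0 hden0
  obtain ⟨X, Y, D, hDden, hX, hY, heq⟩ := exists_integral_coords h0
  have hD : D ≠ 0 := by rw [hDden]; exact_mod_cast x₀.den_nz
  set G := monicQuartic (A * D ^ 4) X Y with hG
  have hΔ' : 4 * (A * D ^ 4) ^ 3 + 27 * (B * D ^ 6) ^ 2 ≠ 0 := by
    rw [show 4 * (A * D ^ 4) ^ 3 + 27 * (B * D ^ 6) ^ 2 = D ^ 12 * (4 * A ^ 3 + 27 * B ^ 2) by ring]
    exact mul_ne_zero (pow_ne_zero _ hD) hΔ
  have hGn : G.Nondegenerate := by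
    rw [QuarticForm.Nondegenerate]
    intro e
    refine hΔ' (mul_left_cancel₀ (show (-110592 : ℤ) ≠ 0 by norm_num) ?_)
    simp only [hG, monicQuartic, QuarticForm.invI, QuarticForm.invJ] at e
    linear_combination e + (-110592 * 27) * ((B * D ^ 6) + Y ^ 2 - X ^ 3 - A * D ^ 4 * X) *
      (heq) * -1
  obtain ⟨hfin, hcard⟩ := IntegralAverage.quartic_solutions (badPrimes S A B) hGn
    (show G.a ≠ 0 by simp [hG, monicQuartic])
  refine ⟨hfin.toFinset.image fun z : ℤ × ℤ =>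
    ((G.hess z.1 z.2 : ℤ) : ℚ) / (48 * (D : ℚ) ^ 2 * ((G.eval z.1 z.2 : ℤ) : ℚ)), ?_, ?_⟩
  · refine Finset.card_image_le.trans ?_
    rw [← Set.ncard_eq_toFinset_card _ _]
    exact hcard
  intro x y hxy hP hQ hcos
  obtain ⟨hxy, hden⟩ := hxy
  simp only at hxy hden
  have hΔq : 4 * (A : ℚ) ^ 3 + 27 * (B : ℚ) ^ 2 ≠ 0 := by exact_mod_cast hΔ
  obtain ⟨p, q, r, s, hd, he⟩ := SelmerAverage.eqv_of_formClass_eq (show
    SelmerAverage.formClass (SelmerAverage.BQ.pointBQ (A : ℚ) x₀ y₀) =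
      SelmerAverage.formClass (SelmerAverage.BQ.pointBQ (A : ℚ) x y) from
    SelmerAverage.class_eq_of_coset_eq hΔq hcos)
  set δ := p * s - q * r with hδ
  set f := SelmerAverage.BQ.pointBQ (A : ℚ) x₀ y₀ with hf
  have h1 : f.eval p r = δ ^ 2 := by
    have := congrArg (fun g : SelmerAverage.BQ ℚ => g.a) he
    simp only [SelmerAverage.BQ.move, SelmerAverage.BQ.scale, SelmerAverage.BQ.act, ← hδ,
      show (SelmerAverage.BQ.pointBQ (A : ℚ) x y).a = 1 from rfl] at this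
    field_simp at this
    linear_combination this
  have h2 : f.hess p r = 48 * x * δ ^ 2 := by
    have := congrArg (fun g : SelmerAverage.BQ ℚ => g.hess 1 0) he
    simp only [SelmerAverage.BQ.move, SelmerAverage.BQ.hess_scale, SelmerAverage.BQ.hess_act, ← hδ,
      mul_one, mul_zero, add_zero, show (SelmerAverage.BQ.pointBQ (A : ℚ) x y).hess 1 0 = 48 * x by
        simp [SelmerAverage.BQ.hess, SelmerAverage.BQ.pointBQ]; ring] at this
    field_simp at this
    linear_combination this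
  have hDq : (D : ℚ) ≠ 0 := Int.cast_ne_zero.mpr hD
  have hpr : (D : ℚ) * p ≠ 0 ∨ r ≠ 0 := by
    by_contra hcon
    push Not at hcon
    obtain ⟨hp, hr⟩ := hcon
    refine hd ?_
    rw [hδ, hr, (mul_eq_zero.mp hp).resolve_left hDq]
    ring
  obtain ⟨c, u, w, hc, hco, hu, hw⟩ := exists_coprime_multiple hpr
  -- the integral form at the integral vector
  have hev : (c : ℚ) ^ 4 * ((G.eval u w : ℤ) : ℚ) = (D : ℚ) ^ 4 * δ ^ 2 := by
    rw [← h1]
    have := (eval_mul (A * D ^ 4) X Y c (u : ℚ) (w : ℚ)).1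
    rw [← hu, ← hw, ← hG] at this
    rw [show ((G.eval u w : ℤ) : ℚ) = G.eval (u : ℚ) (w : ℚ) by
      simp [QuarticForm.eval], ← this]
    simp only [hG, hf, monicQuartic, QuarticForm.eval, SelmerAverage.BQ.eval,
      SelmerAverage.BQ.pointBQ]
    push_cast
    rw [← hX, ← hY]
    ring
  have hhe : (c : ℚ) ^ 4 * ((G.hess u w : ℤ) : ℚ) = (D : ℚ) ^ 6 * (48 * x * δ ^ 2) := by
    rw [← h2]
    have := (eval_mul (A * D ^ 4) X Y c (u : ℚ) (w : ℚ)).2
    rw [← hu, ← hw, ← hG] at this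
    rw [show ((G.hess u w : ℤ) : ℚ) = G.hess (u : ℚ) (w : ℚ) by
      simp [QuarticForm.hess], ← this]
    simp only [hG, hf, monicQuartic, QuarticForm.hess, SelmerAverage.BQ.hess,
      SelmerAverage.BQ.pointBQ]
    push_cast
    rw [← hX, ← hY]
    ring
  have hδ0 : δ ≠ 0 := hd
  have hv0 : G.eval u w ≠ 0 := by
    intro e
    rw [e] at hev
    simp [hDq, hδ0] at hev
  have hx : ((G.hess u w : ℤ) : ℚ) = 48 * x * (D : ℚ) ^ 2 * ((G.eval u w : ℤ) : ℚ) := by
    refine mul_left_cancel₀ (pow_ne_zero 4 hc) ?_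
    linear_combination hhe - 48 * x * (D : ℚ) ^ 2 * hev
  refine Finset.mem_image.mpr ⟨(u, w), hfin.mem_toFinset.mpr ⟨hco, hv0, fun l hl hld => ?_⟩, ?_⟩
  · by_contra hbad
    obtain ⟨hlS, hl6, hlΔ⟩ := not_dvd_of_notMem hΔ hl hbad
    replace hld : (l : ℤ) ∣ G.eval u w := hld
    haveI := Fact.mk hl
    have hlp : Prime (l : ℤ) := Nat.prime_iff_prime_int.1 hl
    have hlD : ¬ (l : ℤ) ∣ D := fun hh => hlS (hden0 l hl (by
      rw [hDden] at hh; exact Int.natCast_dvd_natCast.mp hh))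
    have hmain : G.hess u w * x.den = 48 * x.num * D ^ 2 * G.eval u w := by
      have := congrArg (· * (x.den : ℚ)) hx
      rw [show 48 * x * (D : ℚ) ^ 2 * ((G.eval u w : ℤ) : ℚ) * (x.den : ℚ) =
        48 * (x * x.den) * (D : ℚ) ^ 2 * ((G.eval u w : ℤ) : ℚ) by ring,
        Rat.mul_den_eq_num] at this
      exact_mod_cast this
    have hlh : (l : ℤ) ∣ G.hess u w := by
      refine (hlp.dvd_mul.mp ⟨48 * x.num * D ^ 2 * (hld.choose), ?_⟩).resolve_right fun hh =>
        hlS (hden l hl (Int.natCast_dvd_natCast.mp hh))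
      rw [hmain]
      conv_lhs => rw [hld.choose_spec]
      ring
    refine no_common_zero (A := A * D ^ 4) (B := B * D ^ 6) (X := X) (Y := Y) heq hl6 ?_ hco hld hlh
    rw [show 4 * (A * D ^ 4) ^ 3 + 27 * (B * D ^ 6) ^ 2 = D ^ 12 * (4 * A ^ 3 + 27 * B ^ 2) by ring]
    exact fun hh => (hlp.dvd_mul.mp hh).elim (fun h' => hlD (hlp.dvd_of_dvd_pow h')) hlΔ
  · show ((G.hess u w : ℤ) : ℚ) / (48 * (D : ℚ) ^ 2 * ((G.eval u w : ℤ) : ℚ)) = x
    rw [hx]
    have : ((G.eval u w : ℤ) : ℚ) ≠ 0 := Int.cast_ne_zero.mpr hv0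
    field_simp

theorem finite_modTwo {A B : ℤ} (hΔ : 4 * A ^ 3 + 27 * B ^ 2 ≠ 0) :
    Finite (PointsModTwo (A : ℚ) B) :=
  (FA.AverageRank.card_modTwo_le hΔ IntegralAverage.classesAt_finite').1

/-- **`S`-integral points against cosets.** -/
theorem sPoints_le_cosets (S : Finset ℕ) {A B : ℤ} (hΔ : 4 * A ^ 3 + 27 * B ^ 2 ≠ 0) :
    (sPoints S A B).Finite ∧ (sPoints S A B).ncard ≤
      2 * IntegralAverage.solBound 4 (badPrimes S A B).card *
        Nat.card (PointsModTwo (A : ℚ) B) := by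
  haveI := finite_modTwo hΔ
  haveI := Fintype.ofFinite (PointsModTwo (A : ℚ) B)
  have hΔq : 4 * (A : ℚ) ^ 3 + 27 * (B : ℚ) ^ 2 ≠ 0 := by exact_mod_cast hΔ
  set N := IntegralAverage.solBound 4 (badPrimes S A B).card
  have hns : ∀ P ∈ sPoints S A B, (shortCurve (A : ℚ) B).toAffine.Nonsingular P.1 P.2 :=
    fun P hP => SelmerAverage.nonsingular_of_eq hΔq hP.1
  have hq : ∀ c : PointsModTwo (A : ℚ) B, ∃ xs : Finset ℚ, xs.card ≤ N ∧
      ∀ P (hP : P ∈ sPoints S A B),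
        SelmerAverage.cosetOf (Affine.Point.some P.1 P.2 (hns P hP)) = c → P.1 ∈ xs := by
    intro c
    by_cases h : ∃ P, ∃ hP : P ∈ sPoints S A B,
        SelmerAverage.cosetOf (Affine.Point.some P.1 P.2 (hns P hP)) = c
    · obtain ⟨⟨x₀, y₀⟩, h₀, rfl⟩ := h
      obtain ⟨xs, h1, h2⟩ := coset_abscissa hΔ h₀
      exact ⟨xs, h1, fun P hP e => h2 P.1 P.2 hP _ (hns P hP) e.symm⟩
    · exact ⟨∅, by simp, fun P hP e => absurd ⟨P, hP, e⟩ h⟩
  choose xs hxs hmem using hq
  set all := Finset.univ.biUnion xs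
  have hcard : all.card ≤ N * Nat.card (PointsModTwo (A : ℚ) B) := by
    refine Finset.card_biUnion_le.trans ((Finset.sum_le_card_nsmul _ _ N
      fun c _ => hxs c).trans_eq ?_)
    rw [Finset.card_univ, Nat.card_eq_fintype_card, smul_eq_mul, mul_comm]
  have hsub : sPoints S A B ⊆
      ⋃ x ∈ (all : Set ℚ), {P : ℚ × ℚ | P.2 ^ 2 = P.1 ^ 3 + A * P.1 + B ∧ P.1 = x} := fun P hP =>
    Set.mem_biUnion (Finset.mem_biUnion.mpr ⟨_, Finset.mem_univ _, hmem _ P hP rfl⟩) ⟨hP.1, rfl⟩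
  have hU : (⋃ x ∈ (all : Set ℚ),
      {P : ℚ × ℚ | P.2 ^ 2 = P.1 ^ 3 + A * P.1 + B ∧ P.1 = x}).Finite :=
    all.finite_toSet.biUnion fun x _ => (IntegralAverage.fibre_bound A B x).1
  refine ⟨hU.subset hsub, (Set.ncard_le_ncard hsub hU).trans ?_⟩
  refine (Finset.set_ncard_biUnion_le all _).trans ((Finset.sum_le_card_nsmul _ _ 2
    fun x _ => (IntegralAverage.fibre_bound A B x).2).trans ?_)
  rw [smul_eq_mul, mul_comm all.card, mul_assoc]
  exact Nat.mul_le_mul_left 2 hcard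

/-- In a finitely generated group the doubles have index at most `#T[2] · 2 ^ r`. -/
theorem index_two_mul_le {G : Type*} [AddCommGroup G] [AddGroup.FG G]
    [Finite (AddCommGroup.torsion G)] :
    (nsmulAddMonoidHom (α := G) 2).range.index ≤
      Nat.card {t : AddCommGroup.torsion G // 2 • t = 0} * 2 ^ Module.finrank ℤ G := by
  obtain ⟨r, ⟨e⟩⟩ := FA.MordellWeil.exists_equiv_torsion_prod G
  set T := AddCommGroup.torsion G
  have hr : Module.finrank ℤ G = r := by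
    let s := LinearMap.snd ℤ T (Fin r → ℤ)
    have h0 : Module.finrank ℤ (LinearMap.ker s) = 0 := Module.finrank_eq_zero_iff.mpr fun x =>
      ⟨Nat.card T, Int.natCast_ne_zero.2 Nat.card_pos.ne', Subtype.ext (Prod.ext
        (by show (Nat.card T : ℤ) • x.1.1 = 0; rw [natCast_zsmul, card_nsmul_eq_zero'])
        (by show (Nat.card T : ℤ) • x.1.2 = 0; rw [show x.1.2 = 0 from x.2, smul_zero]))⟩
    haveI : Module.Finite ℤ G := Module.Finite.iff_addGroup_fg.mpr inferInstance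
    haveI : Module.Finite ℤ (T × (Fin r → ℤ)) := Module.Finite.equiv e.toIntLinearEquiv
    have h1 := (LinearMap.ker s).finrank_quotient_add_finrank
    rw [h0, (LinearMap.quotKerEquivOfSurjective s LinearMap.snd_surjective).finrank_eq,
      Module.finrank_pi, Fintype.card_fin] at h1
    rw [show Module.finrank ℤ G = _ from e.toIntLinearEquiv.finrank_eq]
    omega
  rw [hr]
  set D := (nsmulAddMonoidHom (α := T) 2).range
  set H := (nsmulAddMonoidHom (α := G) 2).range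
  let Φ : (T ⧸ D) × (Fin r → Fin 2) → G ⧸ H := fun z =>
    QuotientAddGroup.mk (e.symm (z.1.out, fun i => ((z.2 i : ℕ) : ℤ)))
  have hsurj : Function.Surjective Φ := by
    intro c
    obtain ⟨g, rfl⟩ := QuotientAddGroup.mk_surjective c
    set t := (e g).1
    set n := (e g).2
    obtain ⟨s, hs⟩ : (QuotientAddGroup.mk t : T ⧸ D).out - t ∈ D := by
      have h := QuotientAddGroup.out_eq' (QuotientAddGroup.mk t : T ⧸ D)
      rw [QuotientAddGroup.eq] at h
      rw [show (QuotientAddGroup.mk t : T ⧸ D).out - t =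
        -(-(QuotientAddGroup.mk t : T ⧸ D).out + t) by abel]
      exact neg_mem h
    refine ⟨(QuotientAddGroup.mk t, fun i => ⟨(n i % 2).toNat, by omega⟩),
      QuotientAddGroup.eq.mpr ⟨e.symm (-s, fun i => n i / 2), ?_⟩⟩
    change 2 • e.symm (-s, fun i => n i / 2) = _
    refine e.injective ?_
    simp only [map_nsmul, map_add, map_neg, AddEquiv.apply_symm_apply]
    change 2 • s = _ at hs
    refine Prod.ext ?_ (funext fun i => ?_)
    · simp only [Prod.smul_fst, Prod.fst_add, Prod.fst_neg, smul_neg, hs]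
      abel
    · simp only [Prod.smul_snd, Prod.snd_add, Prod.snd_neg, Pi.smul_apply, Pi.add_apply,
        Pi.neg_apply, nsmul_eq_mul]
      have h := Int.emod_add_mul_ediv (n i) 2
      have h' := Int.emod_nonneg (n i) (show (2 : ℤ) ≠ 0 by norm_num)
      rw [Int.toNat_of_nonneg h']
      show ((2 : ℕ) : ℤ) * (n i / 2) = -(n i % 2) + n i
      push_cast
      linarith
  refine (AddSubgroup.index_eq_card H).trans_le ((Nat.card_le_card_of_surjective Φ hsurj).trans ?_)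
  rw [Nat.card_prod, Nat.card_fun, Nat.card_fin, Nat.card_fin]
  refine Nat.mul_le_mul_right _ (le_of_eq ?_)
  have h1 := AddSubgroup.index_ker (nsmulAddMonoidHom (α := T) 2)
  have h2 := (nsmulAddMonoidHom (α := T) 2).range.index_mul_card
  have h3 := (nsmulAddMonoidHom (α := T) 2).ker.index_mul_card
  rw [h1] at h3
  rw [show {t : T // 2 • t = 0} = (nsmulAddMonoidHom (α := T) 2).ker from rfl,
    ← AddSubgroup.index_eq_card]
  refine mul_left_cancel₀ (Nat.card_pos (α := (nsmulAddMonoidHom (α := T) 2).range)).ne' ?_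
  rw [h3, mul_comm, h2]

/-- **`#E/2E ≤ 4 · 2 ^ rank`.** -/
theorem card_modTwo_le_rank {A B : ℤ} (hΔ : 4 * A ^ 3 + 27 * B ^ 2 ≠ 0) :
    AddGroup.FG (shortCurve (A : ℚ) B).toAffine.Point ∧
      Nat.card (PointsModTwo (A : ℚ) B) ≤ 4 * 2 ^ FA.AverageRank.rankOf A B := by
  haveI := FA.AverageRank.isElliptic_short (FA.AverageRank.discr_cast_ne hΔ)
  haveI := FA.MordellWeil.mordell (shortCurve (A : ℚ) B)
  haveI : Finite (AddCommGroup.torsion (shortCurve (A : ℚ) B).toAffine.Point) := by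
    rcases FA.Torsion.mazur_torsion (shortCurve (A : ℚ) B) with ⟨n, hn, ⟨f⟩⟩ | ⟨m, hm, ⟨f⟩⟩
    · have : NeZero n := ⟨by rintro rfl; simp at hn⟩
      exact Finite.of_equiv _ f.toEquiv.symm
    · have : NeZero (2 * m) := ⟨fun e => by simp at hm; omega⟩
      exact Finite.of_equiv _ f.toEquiv.symm
  refine ⟨inferInstance, ?_⟩
  show Nat.card ((shortCurve (A : ℚ) B).toAffine.Point ⧸ doubles (A : ℚ) B) ≤ _
  rw [← AddSubgroup.index_eq_card]
  refine index_two_mul_le.trans (Nat.mul_le_mul_right _ ?_)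
  obtain ⟨hfin, h4⟩ := FA.AverageRank.smallPoints_bound (A : ℚ) B
  haveI := hfin.to_subtype
  refine le_trans ?_ h4
  rw [← Nat.card_coe_set_eq]
  refine Nat.card_le_card_of_injective (fun t => ⟨t.1.1, ?_⟩) fun a b e => by
    simp only [Subtype.mk.injEq] at e
    exact Subtype.ext (Subtype.ext e)
  obtain ⟨⟨P, hP⟩, ht⟩ := t
  have h2 : 2 • P = 0 := congrArg Subtype.val ht
  rcases P with _ | ⟨x, y, h⟩
  · exact Or.inl rfl
  · refine Or.inr ⟨x, ?_⟩
    rw [two_nsmul, add_eq_zero_iff_eq_neg, Affine.Point.neg_some] at h2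
    simp only [Affine.Point.some.injEq, Affine.negY] at h2
    obtain rfl : y = 0 := by
      have := h2.2
      simp at this
      linarith
    exact ⟨h, rfl⟩

/-- The bound. -/
def pointBound (t : ℕ) : ℕ := 8 * IntegralAverage.solBound 4 t

/-- **`S`-integral points against the rank.** -/
theorem sPoints_le_rank (S : Finset ℕ) {A B : ℤ} (hΔ : 4 * A ^ 3 + 27 * B ^ 2 ≠ 0) :
    (sPoints S A B).Finite ∧
      (sPoints S A B).ncard ≤ pointBound (badPrimes S A B).card *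
        2 ^ FA.AverageRank.rankOf A B := by
  obtain ⟨hfin, h⟩ := sPoints_le_cosets S hΔ
  refine ⟨hfin, h.trans ((Nat.mul_le_mul_left _ (card_modTwo_le_rank hΔ).2).trans_eq ?_)⟩
  unfold pointBound
  generalize IntegralAverage.solBound 4 (badPrimes S A B).card = N
  ring

theorem pointBound_mono {s t : ℕ} (h : s ≤ t) : pointBound s ≤ pointBound t := by
  unfold pointBound IntegralAverage.solBound
  exact Nat.mul_le_mul_left _ (Nat.mul_le_mul_left _ (Nat.pow_le_pow_right (by norm_num)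
    (Nat.mul_le_mul_left _ (Nat.add_le_add_right (Nat.mul_le_mul_left _ (Nat.mul_le_mul_left _
      (Nat.add_le_add_right h 1))) 1))))

end FA.IntegralUniform
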