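import Fermat.Agent.SiegelPoints.Quartic
import Mathlib.Algebra.Field.ZMod

/-!
# The quartic of a point at a good prime

Modulo a prime of good reduction the quartic of a point and its Hessian have no common zero: at
one the quartic would have a double root.
-/

set_option autoImplicit false

noncomputable section

open FA.SiegelPoints

namespace FA.IntegralUniform

/-- The monic quartic of the point `(X, Y)` of `Y² = X³ + A X + B`. -/
def monicQuartic (A X Y : ℤ) : QuarticForm := ⟨1, 0, -6 * X, 8 * Y, -4 * A - 3 * X ^ 2⟩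

/-- **No common zero of the quartic and its Hessian at a good prime.** -/
theorem no_common_zero {A B X Y p r : ℤ} {l : ℕ} [Fact l.Prime]
    (heq : Y ^ 2 = X ^ 3 + A * X + B) (hl6 : ¬ (l : ℤ) ∣ 6)
    (hld : ¬ (l : ℤ) ∣ 4 * A ^ 3 + 27 * B ^ 2) (hco : IsCoprime p r)
    (hv : (l : ℤ) ∣ (monicQuartic A X Y).eval p r)
    (hh : (l : ℤ) ∣ (monicQuartic A X Y).hess p r) : False := by
  have z : ∀ n : ℤ, (l : ℤ) ∣ n ↔ (n : ZMod l) = 0 := fun n =>
    (ZMod.intCast_zmod_eq_zero_iff_dvd n l).symm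
  rw [z] at hl6 hld hv hh
  simp only [QuarticForm.eval, QuarticForm.hess, monicQuartic, Int.cast_id] at hv hh
  push_cast at hl6 hld hv hh
  have heq' := congrArg (Int.cast : ℤ → ZMod l) heq
  push_cast at heq'
  have h2 : (2 : ZMod l) ≠ 0 := fun e => hl6 (by linear_combination 3 * e)
  have h3 : (3 : ZMod l) ≠ 0 := fun e => hl6 (by linear_combination 2 * e)
  set a := (A : ZMod l)
  set b := (B : ZMod l)
  set x := (X : ZMod l)
  set y := (Y : ZMod l)
  by_cases hr : (r : ZMod l) = 0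
  · obtain ⟨u, v, huv⟩ := hco
    have e := congrArg (Int.cast : ℤ → ZMod l) huv
    push_cast at e
    rw [hr] at hv e
    have hp : (p : ZMod l) = 0 := by simpa using hv
    rw [hp] at e
    simp at e
  set t := (p : ZMod l) / (r : ZMod l) with ht
  have hp : (p : ZMod l) = t * r := by rw [ht, div_mul_cancel₀ _ hr]
  rw [hp] at hv hh
  have hf : t ^ 4 - 6 * x * t ^ 2 + 8 * y * t - 4 * a - 3 * x ^ 2 = 0 :=
    (mul_eq_zero.mp (by linear_combination hv : (r : ZMod l) ^ 4 *
      (t ^ 4 - 6 * x * t ^ 2 + 8 * y * t - 4 * a - 3 * x ^ 2) = 0)).resolve_left (pow_ne_zero 4 hr)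
  have hsq : (3 : ZMod l) * (r : ZMod l) ^ 4 * (4 * t ^ 3 - 12 * x * t + 8 * y) ^ 2 = 0 := by
    linear_combination hh + (r : ZMod l) ^ 4 * 4 * (12 * t ^ 2 - 12 * x) * hf
  have hd : 4 * t ^ 3 - 12 * x * t + 8 * y = 0 :=
    pow_eq_zero_iff two_ne_zero |>.mp
      ((mul_eq_zero.mp hsq).resolve_left (mul_ne_zero h3 (pow_ne_zero 4 hr)))
  have h4 : (4 : ZMod l) ≠ 0 := fun e => mul_ne_zero h2 h2 (by linear_combination e)
  have hy : 2 * y = -t ^ 3 + 3 * x * t :=
    mul_left_cancel₀ h4 (by linear_combination hd)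
  have ha : 4 * a = -3 * (t ^ 2 - x) ^ 2 := by linear_combination -hf + 4 * t * hy
  have hb : 4 * b = (t ^ 2 - x) ^ 3 := by
    linear_combination -4 * heq' + (2 * y - t ^ 3 + 3 * x * t) * hy - x * ha
  refine hld (mul_left_cancel₀ (mul_ne_zero h4 h4) ?_)
  linear_combination ((4 * a) ^ 2 - 4 * a * 3 * (t ^ 2 - x) ^ 2 + 9 * (t ^ 2 - x) ^ 4) * ha +
    27 * (4 * b + (t ^ 2 - x) ^ 3) * hb

/-- Homogeneity. -/
theorem eval_mul (A X Y : ℤ) {R : Type*} [CommRing R] (c p r : R) :
    (monicQuartic A X Y).eval (c * p) (c * r) = c ^ 4 * (monicQuartic A X Y).eval p r ∧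
    (monicQuartic A X Y).hess (c * p) (c * r) = c ^ 4 * (monicQuartic A X Y).hess p r := by
  constructor <;> simp only [QuarticForm.eval, QuarticForm.hess] <;> ring

end FA.IntegralUniform
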