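import Fermat.Agent.IntegralUniform.Main
import Fermat.Agent.IntegralAverage.Mordell
import Fermat.Agent.Frob.VarChange

/-!
# Integral Weierstrass equations

An integral equation has the short one `y² = x³ - 27 c₄ x - 54 c₆`, of discriminant `6^12` times
its own; two with the same `(c₄, c₆)` are isomorphic, and `(c₄, c₆)` is an integral point of
`y² = x³ - 1728 Δ`.
-/

set_option autoImplicit false
set_option linter.style.haveILetI false

noncomputable section

open WeierstrassCurve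
open FA.AverageRank (shortCurve)
open scoped Classical

namespace FA.IntegralUniform

variable {W : WeierstrassCurve ℤ}

/-- The curve over `ℚ`. -/
abbrev ratModel (W : WeierstrassCurve ℤ) : WeierstrassCurve ℚ := W.map (Int.castRingHom ℚ)

/-- The change to the short equation. -/
def toShort (W : WeierstrassCurve ℤ) : VariableChange ℚ :=
  ⟨Units.mk0 (6⁻¹) (by norm_num), -(W.b₂ : ℚ) / 12, -(W.a₁ : ℚ) / 2,
    (W.a₁ : ℚ) * W.b₂ / 24 - (W.a₃ : ℚ) / 2⟩

theorem toShort_smul (W : WeierstrassCurve ℤ) :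
    toShort W • ratModel W = shortCurve ((-27 * W.c₄ : ℤ) : ℚ) ((-54 * W.c₆ : ℤ) : ℚ) := by
  ext <;> simp [toShort, variableChange_a₁, variableChange_a₂, variableChange_a₃,
    variableChange_a₄, variableChange_a₆, WeierstrassCurve.c₄, WeierstrassCurve.c₆,
    WeierstrassCurve.b₂, WeierstrassCurve.b₄, WeierstrassCurve.b₆] <;> ring

theorem shortDiscr_eq (W : WeierstrassCurve ℤ) :
    4 * (-27 * W.c₄) ^ 3 + 27 * (-54 * W.c₆) ^ 2 = -(78732 * 1728) * W.Δ := by
  linear_combination 78732 * W.c_relation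

/-- `S` and the primes of `6 Δ`. -/
def modelPrimes (S : Finset ℕ) (W : WeierstrassCurve ℤ) : Finset ℕ :=
  S ∪ (6 * W.Δ).natAbs.primeFactors

theorem badPrimes_subset (S : Finset ℕ) (hW : W.Δ ≠ 0) :
    badPrimes S (-27 * W.c₄) (-54 * W.c₆) ⊆ modelPrimes S W := by
  intro l hl
  rcases Finset.mem_union.mp hl with h | h
  · exact Finset.mem_union_left _ h
  refine Finset.mem_union_right _ ?_
  obtain ⟨hlp, hd, -⟩ := Nat.mem_primeFactors.mp h
  refine Nat.mem_primeFactors.mpr ⟨hlp, ?_, Int.natAbs_ne_zero.mpr (mul_ne_zero (by norm_num) hW)⟩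
  rw [shortDiscr_eq] at hd
  have hd' : l ∣ (6 ^ 18 * W.Δ).natAbs := by
    refine hd.trans ?_
    rw [Int.natAbs_mul, Int.natAbs_mul, Int.natAbs_mul]
    exact ⟨124416, by norm_num; ring⟩
  rw [Int.natAbs_mul, Int.natAbs_pow] at hd'
  rw [Int.natAbs_mul]
  rcases hlp.dvd_mul.mp hd' with h' | h'
  · exact (hlp.dvd_of_dvd_pow h').mul_right _
  · exact h'.mul_left _

/-- The points with `S`-integral `x`. -/
def modelPoints (S : Finset ℕ) (W : WeierstrassCurve ℤ) : Set (ℚ × ℚ) :=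
  {P | (ratModel W).toAffine.Equation P.1 P.2 ∧ ∀ q : ℕ, q.Prime → q ∣ P.1.den → q ∈ S}

theorem finrank_short (hW : W.Δ ≠ 0) :
    Module.finrank ℤ (ratModel W).toAffine.Point =
      FA.AverageRank.rankOf (-27 * W.c₄) (-54 * W.c₆) := by
  haveI : (ratModel W).IsElliptic := ⟨by
    rw [map_Δ, isUnit_iff_ne_zero, eq_intCast]; exact_mod_cast hW⟩
  haveI : (shortCurve ((-27 * W.c₄ : ℤ) : ℚ) ((-54 * W.c₆ : ℤ) : ℚ)).IsElliptic := by
    rw [← toShort_smul]; infer_instance
  exact (FA.Frob.vcEquiv (toShort W) (toShort_smul W)).toIntLinearEquiv.finrank_eq.symm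

theorem fg_model (hW : W.Δ ≠ 0) : AddGroup.FG (ratModel W).toAffine.Point := by
  haveI : (ratModel W).IsElliptic := ⟨by
    rw [map_Δ, isUnit_iff_ne_zero, eq_intCast]; exact_mod_cast hW⟩
  exact FA.MordellWeil.mordell (ratModel W)

/-- **Every integral equation.** -/
theorem modelPoints_le_rank (S : Finset ℕ) (hW : W.Δ ≠ 0) :
    (modelPoints S W).Finite ∧ (modelPoints S W).ncard ≤
      pointBound (modelPrimes S W).card * 2 ^ Module.finrank ℤ (ratModel W).toAffine.Point := by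
  have hΔ : 4 * (-27 * W.c₄) ^ 3 + 27 * (-54 * W.c₆) ^ 2 ≠ 0 := by
    rw [shortDiscr_eq]; exact mul_ne_zero (by norm_num) hW
  obtain ⟨hfin, hcard⟩ := sPoints_le_rank S hΔ
  set φ : ℚ × ℚ → ℚ × ℚ := fun P =>
    (36 * P.1 + 3 * (W.b₂ : ℚ), 108 * (2 * P.2 + W.a₁ * P.1 + W.a₃)) with hφ
  have hinj : Function.Injective φ := by
    rintro ⟨x, y⟩ ⟨x', y'⟩ e
    simp only [hφ, Prod.mk.injEq] at e
    obtain rfl : x = x' := by linarith [e.1]
    obtain rfl : y = y' := by linarith [e.2]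
    rfl
  have hmaps : Set.MapsTo φ (modelPoints S W) (sPoints S (-27 * W.c₄) (-54 * W.c₆)) := by
    rintro ⟨x, y⟩ ⟨he, hden⟩
    rw [Affine.equation_iff] at he
    simp at he hden
    refine ⟨?_, fun q hq hd => hden q hq (hd.trans ?_)⟩
    · simp only [hφ, WeierstrassCurve.c₄, WeierstrassCurve.c₆, WeierstrassCurve.b₂,
        WeierstrassCurve.b₄, WeierstrassCurve.b₆]
      push_cast
      linear_combination 46656 * he
    · show (36 * x + 3 * (W.b₂ : ℚ)).den ∣ x.den
      rw [← Int.natCast_dvd_natCast]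
      have e : 36 * x + 3 * (W.b₂ : ℚ) =
          ((36 * x.num + 3 * W.b₂ * x.den : ℤ) : ℚ) / ((x.den : ℤ) : ℚ) := by
        conv_lhs => rw [← x.num_div_den]
        have : (x.den : ℚ) ≠ 0 := by exact_mod_cast x.den_nz
        push_cast
        field_simp
      rw [e, ← Rat.divInt_eq_div]
      exact Rat.den_dvd _ _
  refine ⟨(hfin.preimage hinj.injOn).subset hmaps, ?_⟩
  rw [finrank_short hW]
  refine ((Set.ncard_le_ncard_of_injOn φ hmaps hinj.injOn hfin).trans hcard).trans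
    (Nat.mul_le_mul_right _ ?_)
  exact pointBound_mono (Finset.card_le_card (badPrimes_subset S hW))

/-- **Equations by discriminant.** -/
theorem exists_models_bound : ∃ C : ℝ, ∀ (X : ℕ) (T : Finset (WeierstrassCurve ℤ)), 1 ≤ X →
    (∀ W ∈ T, W.Δ ≠ 0 ∧ |W.Δ| ≤ (X : ℤ)) →
    (∀ W ∈ T, ∀ W' ∈ T, (∃ C : VariableChange ℚ, C • ratModel W = ratModel W') → W = W') →
    (T.card : ℝ) ≤ C * X := by
  obtain ⟨C, hC0, hC⟩ := IntegralAverage.exists_mordPoints_bound
  refine ⟨C * 1728, fun X T hX hT hiso => ?_⟩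
  obtain ⟨hfin, hsum⟩ := hC (1728 * X) (by omega)
  set K := FA.MordellAverage.kValues (1728 * X)
  set g : WeierstrassCurve ℤ → ℤ × ℤ := fun W => (W.c₄, W.c₆)
  have hinj : Set.InjOn g T := by
    intro W hW W' hW' e
    simp only [g, Prod.mk.injEq] at e
    refine hiso W hW W' hW' ⟨(toShort W')⁻¹ * toShort W, ?_⟩
    rw [mul_smul, toShort_smul, e.1, e.2, ← toShort_smul, inv_smul_smul]
  have hmaps : Set.MapsTo g T (⋃ k ∈ (K : Set ℤ), IntegralAverage.mordPoints k) := by
    intro W hW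
    obtain ⟨h0, hX'⟩ := hT W hW
    refine Set.mem_biUnion (x := -1728 * W.Δ) (FA.MordellAverage.mem_kValues.mpr
      ⟨mul_ne_zero (by norm_num) h0, ?_⟩) ?_
    · rw [abs_mul]
      push_cast
      norm_num
      linarith
    · show W.c₆ ^ 2 = W.c₄ ^ 3 + -1728 * W.Δ
      linear_combination W.c_relation
  have hUfin : (⋃ k ∈ (K : Set ℤ), IntegralAverage.mordPoints k).Finite :=
    K.finite_toSet.biUnion fun k hk => hfin k hk
  have h := Set.ncard_le_ncard_of_injOn g hmaps hinj hUfin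
  rw [Set.ncard_coe_finset] at h
  have h' : (T.card : ℝ) ≤ ∑ k ∈ K, ((IntegralAverage.mordPoints k).ncard : ℝ) := by
    rw [← Nat.cast_sum, Nat.cast_le]
    exact h.trans (Finset.set_ncard_biUnion_le K _)
  refine h'.trans (hsum.trans_eq ?_)
  push_cast
  ring

end FA.IntegralUniform
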